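import Fermat.Statements.S02
-- import your own Fermat.Agent.* helpers here

set_option autoImplicit false
open FreyPackage

namespace Fermat.Agent.S02

/-- Coprime case with `b` even: adjust signs so that `a ≡ 3 mod 4`. -/
theorem frey_of_coprime_even (a b c : ℤ) (ha : a ≠ 0) (hb : b ≠ 0) (hc : c ≠ 0) (p : ℕ)
    (pp : p.Prime) (hp5 : 5 ≤ p) (H : a ^ p + b ^ p = c ^ p) (hab : gcd a b = 1)
    (hb2 : (2 : ℤ) ∣ b) : Nonempty FreyPackage := by
  have hpodd : Odd p := pp.odd_of_ne_two (by omega)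
  have ha_odd : ¬ (2 : ℤ) ∣ a := by
    intro h2a
    have h2 : (2 : ℤ) ∣ gcd a b := dvd_gcd h2a hb2
    rw [hab] at h2
    norm_num at h2
  have hb2' : (b : ZMod 2) = 0 := (ZMod.intCast_zmod_eq_zero_iff_dvd b 2).2 (by exact_mod_cast hb2)
  have hnb2' : ((-b : ℤ) : ZMod 2) = 0 :=
    (ZMod.intCast_zmod_eq_zero_iff_dvd (-b) 2).2 (by exact_mod_cast (dvd_neg.mpr hb2))
  have h4 : a % 4 = 1 ∨ a % 4 = 3 := by omega
  rcases h4 with h1 | h3
  · refine ⟨{ a := -a, b := -b, c := -c, ha0 := neg_ne_zero.mpr ha, hb0 := neg_ne_zero.mpr hb,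
              hc0 := neg_ne_zero.mpr hc, p := p, pp := pp, hp5 := hp5, hFLT := ?_, hgcdab := ?_,
              ha4 := ?_, hb2 := hnb2' }⟩
    · rw [hpodd.neg_pow, hpodd.neg_pow, hpodd.neg_pow, ← H]; ring
    · rw [gcd_neg, neg_gcd]; exact hab
    · have h : ((-a : ℤ) : ZMod 4) = ((3 : ℤ) : ZMod 4) := by
        rw [ZMod.intCast_eq_intCast_iff']
        push_cast
        omega
      simpa using h
  · refine ⟨{ a := a, b := b, c := c, ha0 := ha, hb0 := hb,
              hc0 := hc, p := p, pp := pp, hp5 := hp5, hFLT := H, hgcdab := hab,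
              ha4 := ?_, hb2 := hb2' }⟩
    have h : ((a : ℤ) : ZMod 4) = ((3 : ℤ) : ZMod 4) := by
      rw [ZMod.intCast_eq_intCast_iff']
      push_cast
      omega
    simpa using h

/-- Coprime case: permute so that `b` is even. -/
theorem frey_of_coprime (a b c : ℤ) (ha : a ≠ 0) (hb : b ≠ 0) (hc : c ≠ 0) (p : ℕ)
    (pp : p.Prime) (hp5 : 5 ≤ p) (H : a ^ p + b ^ p = c ^ p) (hab : gcd a b = 1) :
    Nonempty FreyPackage := by
  have hpodd : Odd p := pp.odd_of_ne_two (by omega)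
  have hppos : 0 < p := by omega
  by_cases hb2 : (2 : ℤ) ∣ b
  · exact frey_of_coprime_even a b c ha hb hc p pp hp5 H hab hb2
  by_cases ha2 : (2 : ℤ) ∣ a
  · exact frey_of_coprime_even b a c hb ha hc p pp hp5 (by rw [add_comm]; exact H)
      (by rw [gcd_comm]; exact hab) ha2
  -- both odd, so `c` is even
  have hao : Odd a := by rwa [← Int.not_even_iff_odd, even_iff_two_dvd]
  have hbo : Odd b := by rwa [← Int.not_even_iff_odd, even_iff_two_dvd]
  have hce : Even (c ^ p) := by rw [← H]; exact (hao.pow).add_odd (hbo.pow)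
  have hc2 : (2 : ℤ) ∣ c := by
    rw [← even_iff_two_dvd]
    exact (Int.even_pow.1 hce).1
  refine frey_of_coprime_even a (-c) (-b) ha (neg_ne_zero.mpr hc) (neg_ne_zero.mpr hb) p pp hp5
    ?_ ?_ (dvd_neg.mpr hc2)
  · rw [hpodd.neg_pow, hpodd.neg_pow, ← H]; ring
  · rw [gcd_neg, ← gcdab_eq_gcdac hppos H]; exact hab

theorem result (a b c : ℤ) (ha : a ≠ 0) (hb : b ≠ 0) (hc : c ≠ 0) (p : ℕ) (pp : p.Prime) (hp5 : 5 ≤ p) (H : a ^ p + b ^ p = c ^ p) : Nonempty FreyPackage := by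
  have hppos : 0 < p := by omega
  have hp0 : p ≠ 0 := hppos.ne'
  have hdpos : 0 < Int.gcd a b := Int.gcd_pos_of_ne_zero_left b ha
  obtain ⟨a', b', hab', haa', hbb'⟩ := Int.exists_gcd_one hdpos
  set d : ℤ := (Int.gcd a b : ℤ) with hd
  have hd0 : d ≠ 0 := by
    rw [hd]; exact_mod_cast hdpos.ne'
  have hdc : d ∣ c := by
    rw [← Int.pow_dvd_pow_iff hp0, ← H]
    apply dvd_add <;> rw [Int.pow_dvd_pow_iff hp0]
    · exact Int.gcd_dvd_left a b
    · exact Int.gcd_dvd_right a b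
  obtain ⟨c', hcc'⟩ := hdc
  have ha'0 : a' ≠ 0 := by
    rintro rfl; apply ha; rw [haa']; simp
  have hb'0 : b' ≠ 0 := by
    rintro rfl; apply hb; rw [hbb']; simp
  have hc'0 : c' ≠ 0 := by
    rintro rfl; apply hc; rw [hcc']; simp
  have H' : a' ^ p + b' ^ p = c' ^ p := by
    have h1 : d ^ p * (a' ^ p + b' ^ p) = d ^ p * c' ^ p := by
      have e1 : a ^ p = d ^ p * a' ^ p := by rw [haa', mul_pow, mul_comm]
      have e2 : b ^ p = d ^ p * b' ^ p := by rw [hbb', mul_pow, mul_comm]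
      have e3 : c ^ p = d ^ p * c' ^ p := by rw [hcc', mul_pow]
      rw [mul_add, ← e1, ← e2, ← e3]; exact H
    exact mul_left_cancel₀ (pow_ne_zero p hd0) h1
  refine frey_of_coprime a' b' c' ha'0 hb'0 hc'0 p pp hp5 H' ?_
  rw [← Int.coe_gcd, hab']; rfl

end Fermat.Agent.S02
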