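-- Statement S07 (row 7): every weight-2 cusp form of level Γ₀(2) is zero.
-- Proof: the Sturm bound for Γ₀(N) (prelude lemma `ModularForm.sturm_bound_Gamma0`) with N = 2, k = 2.
-- The index of Γ₀(2) in SL(2, ℤ) is at most 5 (it is 3), so the Sturm bound is 0, and the constant
-- q-expansion coefficient of a cusp form vanishes.
import Fermat.Statements.S07
import Fermat.Prelude.Thm_ModularForm_sturm_bound_Gamma0
import Fermat.Prelude.Thm_CongruenceSubgroup_one_mem_strictPeriods_Gamma0

set_option autoImplicit false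
open WeierstrassCurve WeierstrassCurve.Affine WeierstrassCurve.Affine.Point
open CuspForm ModularFormClass UpperHalfPlane
open ModularForm

namespace Fermat.Agent.S07

open scoped MatrixGroups

theorem card_SL2_ZMod2 : Fintype.card (Matrix.SpecialLinearGroup (Fin 2) (ZMod 2)) = 6 := by
  decide

theorem Gamma2_le_Gamma0 : CongruenceSubgroup.Gamma 2 ≤ CongruenceSubgroup.Gamma0 2 := by
  intro γ hγ
  rw [CongruenceSubgroup.Gamma_mem] at hγ
  rw [CongruenceSubgroup.Gamma0_mem]
  exact hγ.2.2.1

theorem index_Gamma2_le : (CongruenceSubgroup.Gamma 2).index ≤ 6 := by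
  unfold CongruenceSubgroup.Gamma
  rw [Subgroup.index_ker]
  calc Nat.card _ ≤ Nat.card (Matrix.SpecialLinearGroup (Fin 2) (ZMod 2)) :=
        Nat.card_le_card_of_injective _ Subtype.val_injective
    _ = 6 := by rw [Nat.card_eq_fintype_card, card_SL2_ZMod2]

theorem index_Gamma2_ne_zero : (CongruenceSubgroup.Gamma 2).index ≠ 0 :=
  Subgroup.FiniteIndex.index_ne_zero

theorem not_Gamma0_le_Gamma2 : ¬ CongruenceSubgroup.Gamma0 2 ≤ CongruenceSubgroup.Gamma 2 := by
  intro h
  have hT : ModularGroup.T ∈ CongruenceSubgroup.Gamma0 2 := by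
    rw [CongruenceSubgroup.Gamma0_mem]
    simp [ModularGroup.T]
  have := h hT
  rw [CongruenceSubgroup.Gamma_mem] at this
  have h2 := this.2.1
  simp [ModularGroup.T] at h2

theorem index_Gamma0_two_le : (CongruenceSubgroup.Gamma0 2).index ≤ 5 := by
  have h1 := Subgroup.relIndex_mul_index Gamma2_le_Gamma0
  have h2 := index_Gamma2_le
  have h3 := index_Gamma2_ne_zero
  have h4 : (CongruenceSubgroup.Gamma 2).relIndex (CongruenceSubgroup.Gamma0 2) ≠ 1 := by
    rw [Ne, Subgroup.relIndex_eq_one]
    exact not_Gamma0_le_Gamma2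
  have h5 : (CongruenceSubgroup.Gamma 2).relIndex (CongruenceSubgroup.Gamma0 2) ≠ 0 := by
    intro h0
    rw [h0, zero_mul] at h1
    exact h3 h1.symm
  have h6 : 2 ≤ (CongruenceSubgroup.Gamma 2).relIndex (CongruenceSubgroup.Gamma0 2) := by omega
  nlinarith

theorem result (f : CuspForm (CongruenceSubgroup.Gamma0 2) 2) : f = 0 := by
  have hF : ModularFormClass.modularForm f = 0 := by
    apply ModularForm.sturm_bound_Gamma0 2
    intro n hn
    have hidx := index_Gamma0_two_le
    have hn0 : n = 0 := by
      have : (2 * ((CongruenceSubgroup.Gamma0 2).index : ℤ)).toNat / 12 = 0 := by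
        omega
      omega
    subst hn0
    exact CuspFormClass.qExpansion_coeff_zero f one_pos
      (CongruenceSubgroup.one_mem_strictPeriods_Gamma0 2)
  ext z
  have := congrArg (fun g : ModularForm _ _ => g z) hF
  simpa using this

end Fermat.Agent.S07
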