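-- Statement S08 (row 7): every weight-2 cusp form of level Γ₀(1) is zero.
import Fermat.Statements.S08

set_option autoImplicit false
open WeierstrassCurve WeierstrassCurve.Affine WeierstrassCurve.Affine.Point
open CuspForm ModularFormClass UpperHalfPlane
open ModularForm

namespace Fermat.Agent.S08

/-- `Γ₀(1)` is all of `SL(2, ℤ)`, so its image in `GL(2, ℝ)` is the range of `mapGL`. -/
theorem map_Gamma0_one_eq_range :
    (CongruenceSubgroup.Gamma0 1).map (Matrix.SpecialLinearGroup.mapGL ℝ) =
      (Matrix.SpecialLinearGroup.mapGL ℝ : Matrix.SpecialLinearGroup (Fin 2) ℤ →* _).range := by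
  rw [MonoidHom.range_eq_map]
  congr 1
  ext g
  simp only [Subgroup.mem_top, iff_true]
  change ((g.1 1 0 : ℤ) : ZMod 1) = 0
  exact Subsingleton.elim _ _

theorem result (f : CuspForm (CongruenceSubgroup.Gamma0 1) 2) : f = 0 := by
  revert f
  rw [map_Gamma0_one_eq_range]
  intro f
  exact rank_zero_iff_forall_zero.mp
    (CuspForm.rank_eq_zero_of_weight_lt_twelve (k := 2) (by norm_num)) f

end Fermat.Agent.S08
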