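-- Statement S10 (the theorem FreyPackage.frey_no_cofixed_small): for a Frey package with exponent
-- 5, 7 or 13 the Frey curve has no Galois-stable cofixed line.  Proof: the hypothesis is vacuous,
-- because Fermat's Last Theorem holds for the exponents 5, 7, 13 (Kummer's proof for regular
-- primes, made explicit: Sophie Germain for case I, the ring of integers of the cyclotomic field is
-- a PID, Kummer's lemma via explicit unit certificates, and the case II descent).
import Fermat.Statements.S10
import Fermat.Agent.S10.Assembly
import Fermat.Agent.S11.SophieGermain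
import Fermat.Agent.S11.H71.Kummer
import Fermat.Agent.S10.H12.PID7
import Fermat.Agent.S10.PID13

set_option autoImplicit false
open WeierstrassCurve WeierstrassCurve.Affine WeierstrassCurve.Affine.Point
open CuspForm ModularFormClass UpperHalfPlane
open FreyPackage

namespace Fermat.Agent.S10

theorem result (P : FreyPackage) (hp : P.p = 5 ∨ P.p = 7 ∨ P.p = 13) : ¬ HasGaloisStableCofixedLine (K := AlgebraicClosure ℚ) ℚ P.freyCurve P.p := by
  exfalso
  rcases hp with hp | hp | hp
  · have : Fact (Nat.Prime 5) := ⟨by norm_num⟩
    exact freyPackage_false' (p := 5) (by norm_num)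
      (fun K _ _ _ => IsCyclotomicExtension.Rat.five_pid K)
      (fun K _ _ _ => Fermat.Agent.S11.H71.kummer_five K)
      (fun _ _ _ h hab => Fermat.Agent.S11.caseI_five h hab) P hp
  · have : Fact (Nat.Prime 7) := ⟨by norm_num⟩
    exact freyPackage_false' (p := 7) (by norm_num)
      (fun K _ _ _ => Fermat.Agent.S10.H12.pid_seven K)
      (fun K _ _ _ => Fermat.Agent.S11.H71.kummer_seven K)
      (fun _ _ _ h hab => Fermat.Agent.S11.caseI_seven h hab) P hp
  · have : Fact (Nat.Prime 13) := ⟨by norm_num⟩
    exact freyPackage_false' (p := 13) (by norm_num)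
      (fun K _ _ _ => Fermat.Agent.S10.pid_thirteen K)
      (fun K _ _ _ => Fermat.Agent.S11.H71.kummer_thirteen K)
      (fun _ _ _ h hab => Fermat.Agent.S11.caseI_thirteen h hab) P hp

end Fermat.Agent.S10
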