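-- Statement S11 (the theorem FreyPackage.frey_no_cofixed_eleven): for a Frey package with exponent
-- 11 the Frey curve has no Galois-stable cofixed line.  Proof: the hypothesis is vacuous, because
-- Fermat's Last Theorem holds for the exponent 11 (Kummer's proof for the regular prime 11, made
-- explicit: Sophie Germain for case I, the ring of integers of the 11-th cyclotomic field is a PID
-- (Minkowski bound and an element of norm 23), Kummer's lemma via an explicit unit certificate,
-- and the case II descent).
import Fermat.Statements.S11
import Fermat.Agent.S10.Assembly
import Fermat.Agent.S11.SophieGermain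
import Fermat.Agent.S11.H71.Kummer
import Fermat.Agent.S11.PID

set_option autoImplicit false
open WeierstrassCurve WeierstrassCurve.Affine WeierstrassCurve.Affine.Point
open CuspForm ModularFormClass UpperHalfPlane
open FreyPackage

namespace Fermat.Agent.S11

theorem result (P : FreyPackage) (hp : P.p = 11) : ¬ HasGaloisStableCofixedLine (K := AlgebraicClosure ℚ) ℚ P.freyCurve P.p := by
  exfalso
  have : Fact (Nat.Prime 11) := ⟨by norm_num⟩
  exact Fermat.Agent.S10.freyPackage_false' (p := 11) (by norm_num)
    (fun K _ _ _ => Fermat.Agent.S11.pid_eleven K)
    (fun K _ _ _ => Fermat.Agent.S11.H71.kummer_eleven K)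
    (fun _ _ _ h hab => Fermat.Agent.S11.caseI_eleven h hab) P hp

end Fermat.Agent.S11
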