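import Fermat.Statements.S13
import Fermat.Agent.S13.H76.Final
import Fermat.Agent.S13.H3.LeafC
import Fermat.Agent.S13.H31.NoFixed

/-!
# S13: if the mod `p` representation of the Frey curve is reducible, it has a Galois-stable line
with trivial action on the quotient

Assembly (team S13): torsion block via ladder polynomials (H15, H61, H56), branch lemma (H27),
Raynaud step (H61), Minkowski (H54), Frey local data and transport (H86), no rational `p`-torsion
(H31), leaves (H3), abstract dichotomy and Serre assembly (H76).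
-/

set_option autoImplicit false
open WeierstrassCurve WeierstrassCurve.Affine WeierstrassCurve.Affine.Point
open CuspForm ModularFormClass UpperHalfPlane
open FreyPackage

namespace Fermat.Agent.S13

theorem result (P : FreyPackage) (hred : ¬ GaloisRepIsIrreducible (K := AlgebraicClosure ℚ) ℚ P.freyCurve P.p) : HasGaloisStableCofixedLine (K := AlgebraicClosure ℚ) ℚ P.freyCurve P.p := by
  exact H76.result_of_leaves P
    (fun W₀ A h₁ h₂ h₃ h₄ h₆ hΔ σ hσ Q =>
      H3.inE1_smul_sub_of_good W₀ A h₁ h₂ h₃ h₄ h₆ hΔ hσ Q)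
    (fun W₀ A h₃ h₆ h₁ h₂ h₄ hb₂ σ hσ Q hQ =>
      H3.inE1_smul_sub_of_inE0 W₀ A h₃ h₆ h₁ h₂ h₄ hb₂ hσ hQ)
    (H31.frey_no_fixed_torsion_point P) hred

end Fermat.Agent.S13
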