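import Fermat.Statements.S14
import Fermat.Agent.S14.H70.Final
import Fermat.Agent.S14.H11.UnitCase
import Fermat.Agent.S14.H71.Thaine

/-!
# S14: `ExtVanishingCts p` for every prime `p ≥ 3` (Kummer / Thaine / density route).

Assembly of the team library under `Fermat/Agent/S14/`: `H70.Final` wires all packages;
the last two inputs are package U (`H11.unit_case`) and package T-field
(`H71.thaineFieldData`).
-/

set_option autoImplicit false
open ExtCitation

namespace Fermat.Agent.S14

theorem result {p : ℕ} [Fact p.Prime] (h3 : 3 ≤ p) :
    ExtCitation.ExtVanishingCts p := by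
  refine H70.extVanishingCts_of_unit_thaineField h3 ?_ ?_
  · intro hp5 K _ _ _ ζ hζ u he hl
    exact H11.unit_case hp5 hζ u he hl
  · intro _ K _ _ _ ζ hζ Q _ hq hQp
    have hqp : Ideal.absNorm (Q : Ideal (NumberField.RingOfIntegers K)) ≠ p := by
      intro h
      apply hQp
      have := Ideal.absNorm_mem (Q : Ideal (NumberField.RingOfIntegers K))
      rwa [h] at this
    exact H71.thaineFieldData hζ _ hq hqp
      (H71.dvd_absNorm_sub_one hζ (Q : Ideal (NumberField.RingOfIntegers K)) hq hQp)

end Fermat.Agent.S14
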