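-- Statement S21 (row 20): Eichler–Shimura for the period map of level N.
-- Proof: S20 (dimension formula) + the S21 packages
--   A1A2 (H21/Primitive: equivariant primitive, linearity), A3 (H86/Parabolic: range ≤ parabolic),
--   A4 (H88/MaxMod + H88/Inj: injectivity by the maximum modulus principle on X₀(N)),
--   B' (H72: dim Hom_par ≤ 2g), assembled in H21/Assembly.
import Fermat.Statements.S21
import Fermat.Agent.S20
import Fermat.Agent.S21.H21.Assembly

set_option autoImplicit false
open ModularCurve

namespace Fermat.Agent.S21

theorem result (N : ℕ) [NeZero N] :
    Function.Injective (ModularCurve.periodHomPair N)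
      ∧ LinearMap.range (ModularCurve.periodHomPair N)
          = ModularCurve.Period.parabolicHoms ℂ (CongruenceSubgroup.Gamma0 N) ℂ :=
  H21.result_of_S20 N (Fermat.Agent.S20.result N)

end Fermat.Agent.S21
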