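-- Statement S23: cusp forms of weight 2 on Gamma0(N) have an integral structure.
-- Proof: Galois descent (conjugation of cusp forms, package P8) + bounded denominators (P9).
import Fermat.Statements.S23
import Fermat.Agent.S23.H6.Integral
import Fermat.Agent.S23.P8_Conj

set_option autoImplicit false
open CuspForm

namespace Fermat.Agent.S23

theorem result (N : ℕ) [NeZero N] : CuspForm.HasIntegralStructure N 2 :=
  H6.hasIntegralStructure_of_conj N 2 (fun σ f => exists_conj N 2 σ f)

end Fermat.Agent.S23
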