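-- Statement S16 (the theorem ModularCurve.natCard_heckeLatticeAlgebra_quotient_eisensteinIdeal_eq_eisensteinNumerator):
-- the index of the image of the Eisenstein ideal in the integral Hecke algebra of weight 2 and level p
-- is the numerator of (p - 1) / 12.
--
-- Proof (elementary; S16 team, coordinator helper16).  T = heckeLatticeAlgebra p ∅, I = image of the
-- Eisenstein ideal, eps = the Eisenstein evaluation, n = eisensteinNumerator p.
-- * REDUCTION (H79.RedA): T / I is a quotient of the integers, so it suffices to show
--   LOWER  (P acts as zero on the cusp forms  ==>  n divides eps P)   and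
--   UPPER  (m divides eps P for every P acting as zero  ==>  m divides n).
-- * DUALITY (H29.Duality): the a_1-pairing between the lattice of integral cusp forms and T is
--   perfect; hence under the hypothesis of UPPER there is a cusp form f with integral coefficients
--   a_k(f) = sigma'(k) mod m for all k >= 1.
-- * UPPER (H46.Upper, on H63.UpperOf, H96.RelI, H37.NogFinal, H46.NoFormGeFive, H88.NormSturm,
--   H91.Eis, H20.W2, H22.Exp, H78.LevelOneZ, H35.Arith): the trace relation gives
--   24 m | (p^2 - 1) a_1(f); the remaining prime powers are excluded by taking the norm to level
--   one of a suitable form built from G = 24 (E' - f) / (p - 1) and the level-one Sturm bound over a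
--   valuation subring of the complex numbers.
-- * LOWER (H30.Lower, on H97 presentation of PSL2(Z), H27 Hecke operators on Hom(Gamma0(p), A),
--   H99 Hecke equivariance of the period map, H67 core, H53/H8 parabolic integral lift of the
--   Shimura class, and the landed Eichler-Shimura isomorphism S21).
import Fermat.Statements.S16
import Fermat.Agent.S23
import Fermat.Agent.S16.H79.RedA
import Fermat.Agent.S16.H29.Duality
import Fermat.Agent.S16.H30.Lower
import Fermat.Agent.S16.H46.Upper

set_option autoImplicit false
open ModularCurve CuspForm
open ModularCurve

namespace Fermat.Agent.S16

theorem result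
    (p : ℕ) [Fact p.Prime] :
    Nat.card (↥(heckeLatticeAlgebra p ∅) ⧸
        Ideal.map ((latticeRestrictHom p ∅).toRingHom.comp (heckeEvalForms p 2))
          (eisensteinIdeal p)) =
      eisensteinNumerator p :=
  H79.natCard_quotient_eq_of_lower_upper p _ (Fermat.Agent.S23.result p) (H30.lower p)
    (fun m hm => by
      obtain ⟨f, hf⟩ := H29.exists_form_congruent p m hm
      exact H46.upper p m f hf)

end Fermat.Agent.S16
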