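import Fermat.Statements.S18
import Fermat.Agent.S18.H74.Assembly2
import Fermat.Agent.S18.H74.Clear
import Fermat.Agent.S18.H28.ExistsSetup
import Fermat.Agent.S18.H57.CardLe

/-!
S18 (Program J, route of report #1073): a point of `J₀(N)` killed by some `m` prime to `ℓ` whose
reduction modulo `ℓ` vanishes is zero.

  S18 ⟸ step (I) (`H13.stepI`) + Theorem T at level `N` for prime exponents `p ≠ ℓ`
  T(N) ⟸ bridge `H28.exists_setup` (Gauss valuation ring of `F_{N'}`, `N' = N, lcm(N,2), lcm(N,3)`)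
        + norm descent (`H60.descent`) + the abstract Theorem T in the setup
  abstract Theorem T ⟸ clearing lemma (`H74.exists_clear_final`: Key Lemma + tubes)
        + special-fibre count (`H57.card_le_of_approx`) + `H25.absT_prime_of_leaves`.
-/

set_option autoImplicit false
open ModularCurve

namespace Fermat.Agent.S18

theorem result (N : ℕ) [NeZero N] {ℓ : ℕ}
    [Fact ℓ.Prime] (hℓN : ¬ ℓ ∣ N) (A : ValuationSubring (AlgebraicClosure ℚ)) (hA : A.LiesOverPrime ℓ)
    (h : ModularCurve.ReductionInputsModL A N) (m : ℕ) (hm : ¬ ℓ ∣ m) (z : ModularCurve.JZero N)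
    (hmz : m • z = 0) (hz : ModularCurve.reductionModL A N z = 0) :
    z = 0 := by
  have hAtop : A ≠ ⊤ := (Fermat.Agent.S18.H60.unit_facts A hA 1 (fun h1 =>
    (Fact.out : ℓ.Prime).one_lt.ne' (Nat.dvd_one.mp h1))).1
  refine Fermat.Agent.S18.H74.s18_of_setup_clear_count N A hA h (fun p hp hpℓ => ?_)
    (fun N' O x hS m hm0 => Fermat.Agent.S18.H74.clearStatement hAtop hS m hm0)
    (fun N' O x hS => Fermat.Agent.S18.H57.card_le_of_approx hAtop hS) m hm z hmz hz
  have hm' : ¬ ℓ ∣ p := fun h => hpℓ ((Nat.prime_dvd_prime_iff_eq Fact.out hp).mp h).symm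
  obtain ⟨N', _, hle, O, x, hx⟩ := Fermat.Agent.S18.H28.exists_setup N hℓN A hA p hm'
  exact ⟨N', hle, O, x, hx⟩

end Fermat.Agent.S18
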