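-- S24: genus of the function field of X₀(N) over ℚ̄ = the classical genus formula.
import Fermat.Statements.S24
import Fermat.Agent.S24.Global
import Fermat.Agent.S24.Numerics
import Fermat.Agent.S24.ModGlobal

set_option autoImplicit false
open ModularCurve

namespace Fermat.Agent.S24

open AlgebraicCurve KaehlerDifferential in
theorem result (N : ℕ) [NeZero N]
    [AlgebraicCurve.HasCanonicalDivisor (K := AlgebraicClosure ℚ) (F := ↥(ModularCurve.modularFunctionFieldBar N))] :
    (AlgebraicCurve.genus (AlgebraicClosure ℚ) ↥(ModularCurve.modularFunctionFieldBar N) : ℚ)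
      = ModularCurve.genusFormula N := by
  classical
  haveI : Fintype (XX N) := Fintype.ofFinite _
  obtain ⟨G, hfin, hinf⟩ := exists_modularGlobalData N
  obtain ⟨g, hg, hnum⟩ := genus_numerics N
  have hne : ∃ ω : Ω[FF N⁄Kbar], ω ≠ 0 := ⟨KaehlerDifferential.D Kbar (FF N) (jgen N), G.D_ne_zero⟩
  have h1728 : (1728 : Kbar) ≠ 0 := by norm_num
  have hZ : ∀ c, c ∉ ({0, 1728} : Finset Kbar) → (G.fin c).ρ = 1 := by
    intro c hc
    simp only [Finset.mem_insert, Finset.mem_singleton, not_or] at hc
    rw [hfin c, centerPerm, if_neg hc.1, if_neg hc.2]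
  have hdeg := G.degree_eq {0, 1728} hZ hne.choose hne.choose_spec
    (canonicalDivisorOf hne.choose_spec) (fun v => canonicalDivisorOf_apply _ v)
  rw [Finset.sum_pair h1728.symm, hfin 0, hfin 1728, hinf] at hdeg
  have h0 : centerPerm N 0 = MulAction.toPerm (ModularGroup.S * ModularGroup.T) := by
    rw [centerPerm, if_pos rfl]
  have h1 : centerPerm N 1728 = MulAction.toPerm ModularGroup.S := by
    rw [centerPerm, if_neg h1728, if_pos rfl]
  rw [h0, h1] at hdeg
  have hcard : (Fintype.card (XX N) : ℤ) = Nat.card (XX N) := by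
    rw [Nat.card_eq_fintype_card]
  rw [hcard] at hdeg
  have hdeg' : Divisor.degree (canonicalDivisorOf hne.choose_spec) = 2 * (g : ℤ) - 2 := by
    rw [hdeg, hnum]
  have hgenus : AlgebraicCurve.genus (AlgebraicClosure ℚ) ↥(ModularCurve.modularFunctionFieldBar N) = g := by
    unfold AlgebraicCurve.genus
    rw [dif_pos hne, hdeg']
    have : (2 * (g : ℤ) - 2 + 2).toNat = 2 * g := by omega
    rw [this]
    omega
  rw [hgenus, hg]

end Fermat.Agent.S24
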