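-- Statement S28 (row 27): the fibre of the Igusa scheme over a field of characteristic `ℓ ∤ N`
-- is integral (Igusa's theorem).  Final assembly of the packages M1–M7 under `Fermat/Agent/S28/`.
import Fermat.Statements.S28
import Fermat.Agent.S28.H23.HasModPolys
import Fermat.Agent.S28.H53.Final
import Fermat.Agent.S28.H50.Final
import Fermat.Agent.S28.H41.M5Final
import Fermat.Agent.S28.H66.Indep
import Fermat.Agent.S28.H85.LInt
import Fermat.Agent.S28.H87.Reduce

set_option autoImplicit false
open AlgebraicGeometry CategoryTheory CategoryTheory.Limits ModularCurve ModularCurve.IgusaScheme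
noncomputable section
set_option autoImplicit false
open ModularCurve ModularCurve.IgusaScheme

namespace Fermat.Agent.S28

set_option maxHeartbeats 4000000 in
set_option synthInstance.maxHeartbeats 400000 in
theorem result
    (N : ℕ) [NeZero N] (ℓ : ℕ) [Fact ℓ.Prime] (hℓN : ¬ ℓ ∣ N)
    (K : Type) [Field K] [CharP K ℓ] [Algebra ↥(GaloisRep.ratLocalizedAt ℓ) K] :
    IsIntegral ↑(pullback (igusaTo N ℓ)
      (Spec.map (CommRingCat.ofHom (algebraMap ↥(GaloisRep.ratLocalizedAt ℓ) K)))) := by
  -- M1: modular polynomials exist.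
  have hmod : HasModPolys := H23.hasModPolys
  -- M4a: `ψ(N) ≤` the degree in characteristic `ℓ`;  M4b: the degree in characteristic `0` is `≤ ψ(N)`.
  have h4a := dedekindPsi_le_relfinrank hmod N ℓ hℓN
  have h4b := relfinrank_le_dedekindPsi hmod N
  -- M5: the `q`-expansion principle on the two charts.
  obtain ⟨hqF, hqI⟩ := H41.qep_of_indep N ℓ hmod h4b
    (H66.exists_indep_of_le_relfinrank N ℓ hmod h4a)
  -- M6 + M7: reduction of the charts and gluing.
  exact H87.isIntegral_pullback_of_qep N ℓ K
    (fun x hx k => H85.mem_intSubring_iff.mp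
      (H85.coe_mem_intSubring_of_mem_chartAlg N (H85.hS_fin N) hx) k)
    (fun x hx k => H85.mem_intSubring_iff.mp
      (H85.coe_mem_intSubring_of_mem_chartAlg N (H85.hS_inf N) hx) k)
    (fun x hx k => H85.mem_intSubring_iff.mp
      (H85.coe_mem_intSubring_of_mem_chartAlg N (H85.hS_mid N) hx) k)
    (fun x hx hk => by
      obtain ⟨y, hy, hxy⟩ := hqF x hx hk
      exact ⟨y, hy, hxy⟩)
    (fun x hx hk => by
      obtain ⟨y, hy, hxy⟩ := hqI x hx hk
      exact ⟨y, hy, hxy⟩)

end Fermat.Agent.S28
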