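-- S29 (residual Galois representation of a weight-2 eigenform): the frozen statement, proved from the landed
-- leaves of Program A.  `Fermat.Agent.S29.H54.s29_of_topHyp` (consumer top: level 0 vacuous, 𝔪 = ker φ,
-- CYC, ALLQUAD, lemma (D), base change to k) fed with `Fermat.Agent.S42.H54.topHyp` (MOD-INST on the
-- Abel–Jacobi core `H96.exists_AJ_all`, valid for every modulus, so p = 2, 3 are included).
import Fermat.Statements.S29
import Fermat.Agent.S29.H54.Top
import Fermat.Agent.S42.H54.TopHypAll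

set_option autoImplicit false
open CuspForm CuspForm.IsNormalizedEigenform

namespace Fermat.Agent.S29

theorem result
    {N : ℕ} {g : CuspForm (CongruenceSubgroup.Gamma0 N) 2} (hg : g.IsNormalizedEigenform)
    {p : ℕ} (hp : p.Prime) {k : Type} [Field k] [CharP k p]
    (φ : integralClosure ℤ ℂ →+* k) :
    ∃ ρ : ResidualGaloisRep k, ρ.IsAttachedTo g φ ∧
      ∀ ℓ : ℕ, ℓ.Prime → ¬ ℓ ∣ N * p → ρ.IsUnramifiedAt ℓ :=
  Fermat.Agent.S29.H54.s29_of_topHyp hp (Fermat.Agent.S42.H54.topHyp p hp) hg φ

end Fermat.Agent.S29
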