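-- Statement S30 (row 29): Fermat.Agent.S30.result, kernel-checked against the frozen statement
-- CuspForm.FermatFrozen.S30 (Fermat/Statements/S30.lean; the theorem CuspForm.exists_galoisRep_of_point).
-- Proof (helper95, top owner; route of report 1993): O'' := O';
--   (TR)  the pseudo-trace t : G_Q -> O' of the Hecke character chi  (S30/H95/Inst.lean, on helper86's
--         abstract limit lemma S30/H86, from the Abel-Jacobi maps of level p^n (S42/H96), the S37 core,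
--         the stable level groups (S31/H94), the Hecke action on the lattice (S31/H75), cyclic Frobenius
--         density (S29/H69) and the mod p^n cyclotomic character (S31/H76));
--   (RHO) pseudo-trace => representation  (helper90, S30/H90/Rho.lean).
import Fermat.Statements.S30
import Fermat.Agent.S30.H90.Rho
import Fermat.Agent.S30.H95.Inst
import Fermat.Agent.S30.H95.Leaves
import Fermat.Agent.S37.H77.CoreFree
import Fermat.Agent.S31.H94.Stable
import Fermat.Agent.S31.H75.HALeaf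

set_option autoImplicit false
open Polynomial
open CuspForm

namespace Fermat.Agent.S30

theorem result :
    ∀ (p : ℕ) [Fact p.Prime] (N : ℕ) [NeZero N] (S : Finset ℕ)
      (_hpS : p ∈ S) (_hNS : ∀ q : ℕ, q.Prime → q ∣ N → q ∈ S)
      (𝒪' : Type) [CommRing 𝒪'] [IsDomain 𝒪'] [IsDiscreteValuationRing 𝒪']
      [IsAdicComplete (IsLocalRing.maximalIdeal 𝒪') 𝒪'] [Finite (IsLocalRing.ResidueField 𝒪')]
      [CharZero 𝒪'] (_hp𝒪' : (p : 𝒪') ∈ IsLocalRing.maximalIdeal 𝒪')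
      (χ : CuspForm.heckeAlgebra N 2 (↑S : Set ℕ) →+* 𝒪'),
      ∃ (𝒪'' : Type) (_ : CommRing 𝒪'') (_ : IsDomain 𝒪'') (_ : IsDiscreteValuationRing 𝒪'')
        (_ : IsAdicComplete (IsLocalRing.maximalIdeal 𝒪'') 𝒪'')
        (_ : Finite (IsLocalRing.ResidueField 𝒪'')) (_ : CharZero 𝒪'')
        (_ : Algebra 𝒪' 𝒪'') (_ : Module.Finite 𝒪' 𝒪'') (_ : IsLocalHom (algebraMap 𝒪' 𝒪'')),
      Function.Injective (algebraMap 𝒪' 𝒪'') ∧
      ∃ ρ : GaloisRepAdic 𝒪'',
        (∀ (ℓ : ℕ) (hℓ : ℓ.Prime) (hℓN : ¬ ℓ ∣ N) (hℓS : ℓ ∉ (↑S : Set ℕ)),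
          ∀ A : ValuationSubring (AlgebraicClosure ℚ), A.LiesOverPrime ℓ →
            ∀ σ : AlgebraicClosure ℚ ≃ₐ[ℚ] AlgebraicClosure ℚ, A.IsFrobeniusAt σ ℓ →
              LinearMap.charpoly (ρ.ρ σ) =
                X ^ 2 - C (algebraMap 𝒪' 𝒪'' (χ (CuspForm.heckeAlgebra.T hℓ hℓN hℓS))) * X
                  + C ((ℓ : 𝒪''))) ∧
        (∀ q : ℕ, q.Prime → ¬ q ∣ N → q ≠ p → ρ.IsUnramifiedAt q) := by
  intro p hpF N hN S hpS hNS 𝒪' i1 i2 i3 i4 i5 i6 hp χ
  have hp' : p.Prime := hpF.out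
  obtain ⟨t, h1, h2, h3, h4, h5, h6, h7, h8⟩ :=
    Fermat.Agent.S30.H95.trStatement_of_leaves χ
      (Fermat.Agent.S30.H95.ajLeaf_pow N p hp'.ne_zero)
      (Fermat.Agent.S37.H77.core_free N p) (Fermat.Agent.S31.H94.stableLeaf N p)
      (Fermat.Agent.S31.H75.haLeaf N p hp' S) hp' hp hpS
  exact Fermat.Agent.S30.H90.s30_of_pseudoTrace p N S 𝒪' χ t h1 h2 h3 h4 h5 h6 h7 h8

end Fermat.Agent.S30
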