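-- S35 (row 34): Frobenius characteristic polynomials of the lam-adic representation of a weight-two
-- newform at the primes q exactly dividing the level.
-- Assembly: the algebra side (H47.s35_of_frobModel: trace instance, Hecke pair ring, new projector)
-- applied to the geometric model leaf H27.FrobModelStatement, which is
-- H27.frobModelStatement_of_pointLeaves' at the seven closed leaves on the standard two-chart model
-- (four point leaves of Program B' for S34, three Frobenius leaves of S35).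
import Fermat.Statements.S35
import Fermat.Agent.S35.H47.Final
import Fermat.Agent.S35.H27.FrobCross2
import Fermat.Agent.S35.H14.FrobRed
import Fermat.Agent.S35.H97.OneCompLeafB
import Fermat.Agent.S35.H53.CrossStd
import Fermat.Agent.S34.H30.Done

set_option autoImplicit false
set_option autoImplicit false
open Polynomial
open CuspForm CuspForm.IsNewform

namespace Fermat.Agent.S35

theorem result
    {M : ℕ} [NeZero M] {g : CuspForm (CongruenceSubgroup.Gamma0 M) 2} (hg : g.IsNewform)
    (lam : ℕ) [Fact lam.Prime]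
    (S : Finset ℕ)
    (O' : Type) [CommRing O'] [IsDomain O'] [IsDiscreteValuationRing O']
    [IsAdicComplete (IsLocalRing.maximalIdeal O') O'] [Finite (IsLocalRing.ResidueField O')]
    [CharZero O'] (hlamO' : (lam : O') ∈ IsLocalRing.maximalIdeal O')
    (chig : CuspForm.heckeAlgebra M 2 (↑S : Set ℕ) →+* ℂ)
    (hchig : ∀ (ℓ : ℕ) (hℓ : ℓ.Prime) (hℓM : ¬ ℓ ∣ M) (hℓS : ℓ ∉ (↑S : Set ℕ)),
      chig (CuspForm.heckeAlgebra.T hℓ hℓM hℓS) = ModularFormClass.qCoeff g ℓ)
    (iota : chig.range →+* O')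
    (hlamS : lam ∈ S) (hMS : ∀ q : ℕ, q.Prime → q ∣ M → q ∈ S)
    :
    ∃ (O'' : Type) (_ : CommRing O'') (_ : IsDomain O'') (_ : IsDiscreteValuationRing O'')
      (_ : IsAdicComplete (IsLocalRing.maximalIdeal O'') O'') (_ : Finite (IsLocalRing.ResidueField O''))
      (_ : CharZero O'') (_ : Algebra O' O'') (_ : Module.Finite O' O'') (_ : IsLocalHom (algebraMap O' O'')),
      Function.Injective (algebraMap O' O'') ∧
      ∃ ρ : GaloisRepAdic O'',
        (∀ (ℓ : ℕ) (hℓ : ℓ.Prime) (hℓM : ¬ ℓ ∣ M) (hℓS : ℓ ∉ (↑S : Set ℕ)),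
          ∀ A : ValuationSubring (AlgebraicClosure ℚ), A.LiesOverPrime ℓ →
            ∀ σ : AlgebraicClosure ℚ ≃ₐ[ℚ] AlgebraicClosure ℚ, A.IsFrobeniusAt σ ℓ →
              LinearMap.charpoly (ρ.ρ σ) =
                X ^ 2 - C (algebraMap O' O'' ((iota.comp chig.rangeRestrict) (CuspForm.heckeAlgebra.T hℓ hℓM hℓS))) * X
                  + C ((ℓ : O''))) ∧
        (∀ q : ℕ, q.Prime → q ≠ lam → q ∣ M → ¬ q ^ 2 ∣ M →
          ∀ A : ValuationSubring (AlgebraicClosure ℚ), A.LiesOverPrime q →
            ∀ σ : AlgebraicClosure ℚ ≃ₐ[ℚ] AlgebraicClosure ℚ, A.IsFrobeniusAt σ q →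
              LinearMap.charpoly (ρ.ρ σ) = X ^ 2 - C ((q : O'') + 1) * X + C ((q : O'')) ∨
              LinearMap.charpoly (ρ.ρ σ) = X ^ 2 + C ((q : O'') + 1) * X + C ((q : O''))) :=
  Fermat.Agent.S35.H47.s35_of_frobModel
    (Fermat.Agent.S35.H27.frobModelStatement_of_pointLeaves'
      Fermat.Agent.S34.H30.semiLeafB_std
      Fermat.Agent.S34.H4.oneCompLeafB_std
      Fermat.Agent.S34.H79.cuspLeafB_std
      (Fermat.Agent.S34.H77.crossLeafB_std_of_regular
        (Fermat.Agent.S34.H68.regularCrossLeaf_of Fermat.Agent.S34.H43.hauptBeta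
          Fermat.Agent.S34.H30.hauptUnr_std))
      (Fermat.Agent.S35.H27.frobRedLeafB_of _ Fermat.Agent.S35.H14.frobRedLeaf)
      Fermat.Agent.S35.H97.oneCompFrobLeafB_std
      Fermat.Agent.S35.H53.crossFrobLeafB₁_std)
    hg lam S O' hlamO' chig hchig iota hlamS hMS

end Fermat.Agent.S35
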