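import Fermat.Statements.S37
import Fermat.Agent.S37.H77.Assembly

/-!
S37: existence of the specialization map on `J₀(N)` (Eichler–Shimura congruence modulo `ℓ`).

  S37 ⟸ `H65.Core N p` (`H65.result_of_core`: formal top)
  `Core` ⟸ `H77.core` (concrete assembly of the abstract core `H36.core_clause` at the auxiliary
  level `N q`, `q ∈ {1, 2, 3}`, with Program J's exports for the explicit setups).
-/

set_option autoImplicit false
open ModularCurve

namespace Fermat.Agent.S37

theorem result (N p : ℕ) [NeZero N] (hcomm : ModularCurve.HeckeOperatorsCommuteBar N) : letI := ModularCurve.heckeModuleBar N; ∀ (_ : SMulCommClass (AlgebraicClosure ℚ ≃ₐ[ℚ] AlgebraicClosure ℚ) ModularCurve.HeckeAlg (ModularCurve.JZero N)), ModularCurve.SpecializationExists (K := ℚ) (L := AlgebraicClosure ℚ) N p (ModularCurve.JZero N) := by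
  letI := ModularCurve.heckeModuleBar N
  intro inst
  exact Fermat.Agent.S37.H65.result_of_core N p hcomm inst
    (Fermat.Agent.S37.H77.core N p hcomm inst)

end Fermat.Agent.S37
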