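-- S42 (residual attachment for the Frey package): the frozen statement, proved from the landed leaves of
-- Program A.  `Fermat.Agent.S42.H54.s42_of_topHyp` (consumer top: CYC, ALLQUAD, lemma (D), number field F)
-- fed with `Fermat.Agent.S42.H54.topHyp` (MOD-INST on the Abel–Jacobi core `H96.exists_AJ_all`, the residual
-- eigen-homomorphism `H97`, finite Galois orbits `H17`, Galois/Hecke commutation `H60`, the S37 core `H77`).
import Fermat.Statements.S42
import Fermat.Agent.S42.H54.Top
import Fermat.Agent.S42.H54.TopHypAll

set_option autoImplicit false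
open FreyPackage

namespace Fermat.Agent.S42

theorem result (P : FreyPackage) :
    ∀ M : ℕ, 0 < M → P.EigenformResidualAttachmentAt M :=
  Fermat.Agent.S42.H54.s42_of_topHyp P (Fermat.Agent.S42.H54.topHyp P.p P.pp)

end Fermat.Agent.S42
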