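import Fermat.Statements.S49
import Fermat.Agent.S49.Forms

set_option autoImplicit false
open CuspForm EisensteinWeightOne CongruenceSubgroup ModularFormClass
open FLT FLT.AbstractIntegralStructure

namespace Fermat.Agent.S49

theorem chiNegThree_cong (ℓ : ℕ) : (3 : ℤ) ∣ (ℓ : ℤ) - chiNegThree ℓ := by
  unfold chiNegThree
  have h3 : ℓ % 3 < 3 := Nat.mod_lt _ (by norm_num)
  split_ifs <;> omega

theorem bridge_cong (a : ℕ → ℤ) (n : ℕ) : (3 : ℤ) ∣ (bridgeProduct a).coeff n - a n := by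
  have h1 : e1Chi3In ℤ = 1 + (3 : ℤ) •
      PowerSeries.mk (fun n => if n = 0 then 0 else 2 * sigmaChi n) := by
    ext n
    rw [map_add, map_zsmul]
    simp only [e1Chi3In, e1Chi3, PowerSeries.coeff_map, PowerSeries.coeff_mk,
      PowerSeries.coeff_one, eq_intCast, Int.cast_id, smul_eq_mul]
    split_ifs <;> ring
  rw [bridgeProduct, h1, mul_add, mul_one, mul_smul_comm, map_add, PowerSeries.coeff_mk,
    map_zsmul]
  simp

theorem result
    {N : ℕ} [NeZero N] (h : CuspForm.HasIntegralBasis N) {a : ℕ → ℤ}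
    (heig : FormalHecke.IsEigensystem
      (fun ℓ => if ℓ ∣ N then 0 else ((chiNegThree ℓ : ℤ) : ℤ)) a)
    (hreal : CuspForm.IsLatticeRealized N a) :
    ∃ (f : CuspForm (Gamma0 N) 2) (_ : f.IsNormalizedEigenform)
      (𝔪' : Ideal (integralClosure ℤ ℂ)), 𝔪'.IsMaximal ∧
      ((3 : ℕ) : integralClosure ℤ ℂ) ∈ 𝔪' ∧
      ∀ (ℓ : ℕ) (_ : ℓ.Prime) (_ : ¬ ℓ ∣ N),
        ∃ c : integralClosure ℤ ℂ, (c : ℂ) = ModularFormClass.qCoeff f ℓ ∧
          c - (a ℓ : integralClosure ℤ ℂ) ∈ 𝔪' := by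
  classical
  obtain ⟨f₀, hf₀, af, haf, hdiv⟩ := hreal
  have hcong : ∀ n, (3 : ℤ) ∣ af n - a n := fun n => by
    have := dvd_add (hdiv n) (bridge_cong a n)
    simpa using this
  have hf₀L : f₀ ∈ CuspForm.intLattice N 2 := qIntegralSet_subset N hf₀
  have h1 : ¬ (3 : ℤ) ∣ af 1 := by
    intro h'
    have := Int.dvd_sub h' (hcong 1)
    rw [sub_sub_cancel, heig.1] at this
    norm_num at this
  have hfd := finiteDimensional_of_hasIntegralBasis h
  have hfin := heckeAlgebra_finite h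
  obtain ⟨g, lam, 𝔪', hg0, h𝔪', heigen, hmem⟩ :=
    exists_eigen_lift (A := HA N) (V := CuspForm (Gamma0 N) 2)
      ((CuspForm.heckeAlgebra N 2 (∅ : Set ℕ)).val.toRingHom) Subtype.val_injective
      (eigenIdeal f₀) (eigenIdeal_ne_top f₀ af haf h1)
  let μ : ℕ → ℂ := fun ℓ => if hℓ : ℓ.Prime then
      (if hℓN : ℓ ∣ N then
        ((lam (CuspForm.heckeAlgebra.U hℓ hℓN (Set.notMem_empty ℓ)) : integralClosure ℤ ℂ) : ℂ)
      else ((lam (CuspForm.heckeAlgebra.T hℓ hℓN (Set.notMem_empty ℓ)) : integralClosure ℤ ℂ) : ℂ))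
    else 0
  obtain ⟨f, hf, hfμ⟩ := exists_normalized_of_eigenvector g hg0 μ
    (fun ℓ hℓ hℓN => by
      have := heigen (CuspForm.heckeAlgebra.T hℓ hℓN (Set.notMem_empty ℓ))
      simp only [μ, dif_pos hℓ, dif_neg hℓN]
      exact this)
    (fun q hq hqN => by
      have := heigen (CuspForm.heckeAlgebra.U hq hqN (Set.notMem_empty q))
      simp only [μ, dif_pos hq, dif_pos hqN]
      exact this)
  refine ⟨f, hf, 𝔪', h𝔪', ?_, ?_⟩
  · have := hmem _ (natCast_three_mem_eigenIdeal f₀ hf₀L)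
    rwa [map_natCast] at this
  · intro ℓ hℓ hℓN
    refine ⟨lam (CuspForm.heckeAlgebra.T hℓ hℓN (Set.notMem_empty ℓ)), ?_, ?_⟩
    · rw [hfμ ℓ hℓ]
      simp only [μ, dif_pos hℓ, dif_neg hℓN]
    · have hmemT := T_sub_mem_eigenIdeal f₀ af a haf hcong hℓ hℓN (a ℓ) (fun n => by
        have key := heig.2 ℓ hℓ n
        simp only [if_neg hℓN] at key
        have e : a (n * ℓ) + (if ℓ ∣ n then (ℓ : ℤ) * a (n / ℓ) else 0) - a ℓ * a n =
            ((ℓ : ℤ) - chiNegThree ℓ) * (if ℓ ∣ n then a (n / ℓ) else 0) := by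
          rw [mul_comm n ℓ, ← key]
          split_ifs <;> ring
        rw [e]
        exact Dvd.dvd.mul_right (chiNegThree_cong ℓ) _)
      have := hmem _ hmemT
      rwa [map_sub, eq_intCast, map_intCast] at this

end Fermat.Agent.S49
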