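import Fermat.Statements.S51
import Fermat.Agent.S51.Galois
import Fermat.Agent.S51.Alg
import Fermat.Agent.S51.Semistable
import Fermat.Agent.S51.D.Descent

set_option autoImplicit false
open WeierstrassCurve WeierstrassCurve.Affine WeierstrassCurve.Affine.Point
open CuspForm ModularFormClass UpperHalfPlane
open WeierstrassCurve

namespace Fermat.Agent.S51

theorem result (W : WeierstrassCurve ℤ) (hΔ : W.Δ ≠ 0) (hW : W.IsSemistableModel) : W.ModRepIsIrreducible 3 ∨ W.ModRepIsIrreducible 5 := by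
  by_contra hcon
  rw [not_or] at hcon
  obtain ⟨h3, h5⟩ := hcon
  have hΔE : (W.map (Int.castRingHom ℚ)).Δ ≠ 0 := by
    rw [WeierstrassCurve.map_Δ]
    simpa using hΔ
  obtain ⟨x₀, hx₀⟩ := exists_root_of_not_irreducible_three _ hΔE h3
  obtain ⟨u, v, h4, hr1, hr0, hne⟩ := exists_quad_of_not_irreducible_five _ hΔE h5
  have hA : sA (W.map (Int.castRingHom ℚ)) = -27 * (W.c₄ : ℚ) := by
    rw [sA, WeierstrassCurve.map_c₄]; rfl
  have hB : sB (W.map (Int.castRingHom ℚ)) = -54 * (W.c₆ : ℚ) := by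
    rw [sB, WeierstrassCurve.map_c₆]; rfl
  have hrel : (1728 : ℚ) * (W.Δ : ℚ) = (W.c₄ : ℚ) ^ 3 - (W.c₆ : ℚ) ^ 2 := by
    exact_mod_cast W.c_relation
  rw [hA, hB] at hx₀ hr1 hr0 hne
  have hdisc : 4 * (-27 * (W.c₄ : ℚ)) ^ 3 + 27 * (-54 * (W.c₆ : ℚ)) ^ 2
      = -136048896 * (W.Δ : ℚ) := by
    linear_combination (78732 : ℚ) * hrel
  have hΔQ : (W.Δ : ℚ) ≠ 0 := by exact_mod_cast hΔ
  obtain ⟨t, ht, hj⟩ := alg_core D.no_nontrivial_point (-27 * (W.c₄ : ℚ)) (-54 * (W.c₆ : ℚ))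
    x₀ u v (by rw [hdisc]; exact mul_ne_zero (by norm_num) hΔQ) hx₀ hr1 hr0 h4 (hne x₀ hx₀)
  refine semistable_contra W hΔ hW t ht ?_
  rw [hdisc] at hj
  linear_combination (-1 / 136048896 : ℚ) * hj

end Fermat.Agent.S51
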