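-- S52 (the 3–5 switch).  Assembly of Program E:
--   E0  H93.Lite.isKleinFamily            (Klein line identities)
--   E1  H94.cayley_hamilton          (Cayley–Hamilton for Frobenius, Manin's method)
--   E5  H98.thmA_of_isKleinFamily    (Theorem A')
--   E7  H3.s52_of_kleinFamily        (model, semistability, irreducibility mod 3, congruences)
import Fermat.Statements.S52
import Fermat.Agent.S52.H3.FamilyGlue
import Fermat.Agent.S52.H93.Lite.Family
import Fermat.Agent.S52.H98.ThmA
import Fermat.Agent.S52.H94.CHTransfer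

set_option autoImplicit false
open WeierstrassCurve WeierstrassCurve.Affine WeierstrassCurve.Affine.Point
open CuspForm ModularFormClass UpperHalfPlane
open WeierstrassCurve

namespace Fermat.Agent.S52

theorem result (W : WeierstrassCurve ℤ) (hΔ : W.Δ ≠ 0) (hW : W.IsSemistableModel) (h5 : W.ModRepIsIrreducible 5) : ∃ W' : WeierstrassCurve ℤ, W'.Δ ≠ 0 ∧ W'.IsSemistableModel ∧ W'.ModRepIsIrreducible 3 ∧ ∀ ℓ : ℕ, ℓ.Prime → W.IsGoodPrimeFor ℓ → W'.IsGoodPrimeFor ℓ → ℓ ≠ 5 → (5 : ℤ) ∣ (W'.apOfModel ℓ - W.apOfModel ℓ) :=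
  H3.s52_of_kleinFamily H93.Lite.isKleinFamily
    (H98.thmA_of_isKleinFamily H93.Lite.isKleinFamily
      (fun l _ hl A B hΔ' => H94.cayley_hamilton l A B (by omega) hΔ'))
    W hΔ hW

end Fermat.Agent.S52
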