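-- Statement S53 (row 47): existence of the universal deformation ring.
-- The statement below is byte-identical to the frozen statement GaloisRep.FermatFrozen.S53
-- (Fermat/Statements/S53.lean; the theorem GaloisRep.nonempty_deformationRingData).
-- Proof: abstract pro-representability (helper96, Fermat.Agent.S53.H96.Main) applied to the
-- functor of gauge-fixed matrix lifts (helper53 and the S53 team, Fermat.Agent.S53.Final).
import Fermat.Statements.S53
import Fermat.Agent.S53.Final
import Fermat.Agent.S53.H96.Main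

set_option autoImplicit false
set_option autoImplicit false
open GaloisRep

namespace Fermat.Agent.S53

theorem result
    (𝒪 : Type) [CommRing 𝒪] [IsDomain 𝒪] [IsDiscreteValuationRing 𝒪]
    [IsAdicComplete (IsLocalRing.maximalIdeal 𝒪) 𝒪] [Finite (IsLocalRing.ResidueField 𝒪)]
    (ρbar : ResidualGaloisRep (IsLocalRing.ResidueField 𝒪))
    (𝒟 : ∀ ⦃A : Type⦄ [CommRing A] [IsLocalRing A] [Algebra 𝒪 A], GaloisRepAdic A → Prop)
    (habs : ρbar.IsAbsolutelyIrreducible)
    (h𝒟 : GaloisRep.IsDeformationCondition 𝒪 𝒟)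
    (hbar : 𝒟 (GaloisRepAdic.ofResidualGaloisRep ρbar))
    (hfin : GaloisRep.TangentFinite 𝒪 ρbar 𝒟) :
    Nonempty (GaloisRep.DeformationRingData 𝒪 ρbar 𝒟) :=
  nonempty_deformationRingData_of_abstract 𝒪 (H96.abstractStatement_holds 𝒪) ρbar 𝒟 habs h𝒟 hbar
    hfin

end Fermat.Agent.S53
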