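-- Statement S57 (row 51): patching descent step, Algebra.PatchingLevel.free_and_ker_eq_span.
-- Proof: N is a maximal Cohen-Macaulay module over the regular local ring O[[X_1..X_r]]
-- (it is free via phi), hence free (Fermat.Agent.S57.free_of_regGen in S57/MCM.lean);
-- the three conclusions then follow by reading coordinates in a basis of N.
import Fermat.Statements.S57
import Fermat.Agent.S57.MCM

set_option autoImplicit false
open Algebra Algebra.PatchingLevel

namespace Fermat.Agent.S57

open IsLocalRing RingTheory.Sequence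

section Patching

variable {𝒪 : Type} [CommRing 𝒪] {r : ℕ} {R : Type} [CommRing R] [Algebra 𝒪 R]
    {M : Type} [AddCommGroup M] [Module R M]
    (L : Algebra.PatchingLevel 𝒪 r R M ⊥)

/-- The `φ`-semilinear parametrisation of `N` by `d`-tuples of power series. -/
noncomputable def paramHom : (Fin L.d → MvPowerSeries (Fin r) 𝒪) →+ L.N where
  toFun c := ∑ i, L.φ (c i) • L.b i
  map_zero' := by simp
  map_add' c c' := by simp [add_smul, Finset.sum_add_distrib]

theorem paramHom_smul (a : MvPowerSeries (Fin r) 𝒪) (c : Fin L.d → MvPowerSeries (Fin r) 𝒪) :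
    paramHom L (a • c) = L.φ a • paramHom L c := by
  simp [paramHom, Finset.smul_sum, mul_smul]

theorem paramHom_bijective : Function.Bijective (paramHom L) := by
  constructor
  · rw [injective_iff_map_eq_zero]
    intro c hc
    have := (L.b_rel c).mp hc
    funext i
    simpa using this i
  · intro x
    obtain ⟨c, hc⟩ := L.b_span x
    exact ⟨c, hc.symm⟩

/-- The parametrisation as an additive equivalence. -/
noncomputable def paramEquiv : (Fin L.d → MvPowerSeries (Fin r) 𝒪) ≃+ L.N :=
  AddEquiv.ofBijective (paramHom L) (paramHom_bijective L)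

theorem finite_N : Module.Finite (MvPowerSeries (Fin r) 𝒪) L.N := by
  classical
  refine ⟨⟨Finset.univ.image L.b, ?_⟩⟩
  rw [_root_.eq_top_iff]
  rintro x -
  obtain ⟨c, rfl⟩ := L.b_span x
  refine Submodule.sum_mem _ fun i _ => Submodule.smul_mem _ _ (Submodule.subset_span ?_)
  simp

theorem phi_mem_maximalIdeal [IsLocalRing 𝒪] [Nontrivial L.N] {t : MvPowerSeries (Fin r) 𝒪}
    (ht : t ∈ maximalIdeal (MvPowerSeries (Fin r) 𝒪)) :
    L.φ t ∈ maximalIdeal (MvPowerSeries (Fin r) 𝒪) := by
  classical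
  rw [IsLocalRing.mem_maximalIdeal] at ht ⊢
  intro hu
  apply ht
  have hd : 0 < L.d := by
    by_contra h0
    have h0' : L.d = 0 := by omega
    have hall : ∀ x : L.N, x = 0 := by
      intro x
      obtain ⟨c, rfl⟩ := L.b_span x
      have : IsEmpty (Fin L.d) := by rw [h0']; infer_instance
      simp
    obtain ⟨x, y, hxy⟩ := exists_pair_ne L.N
    exact hxy ((hall x).trans (hall y).symm)
  obtain ⟨v, hv⟩ := hu.exists_left_inv
  obtain ⟨c, hc⟩ := L.b_span (v • L.b ⟨0, hd⟩)
  have h1 : L.b ⟨0, hd⟩ = ∑ i, L.φ (t * c i) • L.b i := by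
    calc L.b ⟨0, hd⟩ = (L.φ t * v) • L.b ⟨0, hd⟩ := by rw [mul_comm, hv, one_smul]
      _ = L.φ t • (v • L.b ⟨0, hd⟩) := mul_smul _ _ _
      _ = _ := by rw [hc, Finset.smul_sum]; simp [mul_smul]
  have h2 : ∑ i, L.φ ((fun i => t * c i - if i = ⟨0, hd⟩ then 1 else 0) i) • L.b i = 0 := by
    simp only [map_sub, sub_smul, Finset.sum_sub_distrib, ← h1]
    rw [sub_eq_zero]
    simp [apply_ite L.φ, ite_smul]
  have h3 := (L.b_rel _).mp h2 ⟨0, hd⟩
  simp only [if_true, Ideal.mem_bot] at h3
  exact IsUnit.of_mul_eq_one (c ⟨0, hd⟩) (sub_eq_zero.mp h3)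

theorem free_N [IsDomain 𝒪] [IsDiscreteValuationRing 𝒪] [Nontrivial L.N] :
    Module.Free (MvPowerSeries (Fin r) 𝒪) L.N := by
  have hA := regGen_mvPowerSeries 𝒪 r
  obtain ⟨ts, hlen, hreg, hgen⟩ := id hA
  have := finite_N L
  refine free_of_regGen (r + 1) _ hA L.N (ts.map L.φ) (by simpa using hlen) ?_ ?_
  · intro y hy
    obtain ⟨t, ht, rfl⟩ := List.mem_map.mp hy
    exact phi_mem_maximalIdeal L (by rw [← hgen]; exact Ideal.subset_span ht)
  · refine (AddEquiv.isWeaklyRegular_congr (e := paramEquiv L) ?_).mp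
      (isWeaklyRegular_pi L.d hreg.toIsWeaklyRegular)
    exact List.forall₂_map_right_iff.mpr
      (List.forall₂_same.mpr fun a _ c => paramHom_smul L a c)

end Patching

theorem result
    {𝒪 : Type} [CommRing 𝒪] [IsDomain 𝒪] [IsDiscreteValuationRing 𝒪]
    {r : ℕ} {R : Type} [CommRing R] [Algebra 𝒪 R]
    {M : Type} [AddCommGroup M] [Module R M] [Nontrivial M]
    (L : Algebra.PatchingLevel 𝒪 r R M ⊥) :
    Module.Free R M ∧ Module.annihilator R M = ⊥ ∧
      RingHom.ker L.ψ = Ideal.span (Set.range fun i : Fin r => L.φ (MvPowerSeries.X i)) := by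
  classical
  have hNnt : Nontrivial L.N := by
    obtain ⟨m, hm⟩ := exists_ne (0 : M)
    obtain ⟨x, rfl⟩ := L.π_surjective m
    exact ⟨⟨x, 0, fun h => hm (by rw [h, map_zero])⟩⟩
  have hfree := free_N L
  let e := Module.Free.chooseBasis (MvPowerSeries (Fin r) 𝒪) L.N
  have hcoord : ∀ x ∈ ((Ideal.span (Set.range fun i : Fin r => L.φ (MvPowerSeries.X i))) •
      (⊤ : Submodule (MvPowerSeries (Fin r) 𝒪) L.N)), ∀ j,
      e.repr x j ∈ Ideal.span (Set.range fun i : Fin r => L.φ (MvPowerSeries.X i)) := by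
    intro x hx j
    have hle : (Ideal.span (Set.range fun i : Fin r => L.φ (MvPowerSeries.X i))) •
        (⊤ : Submodule (MvPowerSeries (Fin r) 𝒪) L.N) ≤
        Submodule.comap (e.coord j)
          (Ideal.span (Set.range fun i : Fin r => L.φ (MvPowerSeries.X i))) := by
      rw [Submodule.smul_le]
      intro a ha n _
      simp only [Submodule.mem_comap, map_smul, smul_eq_mul]
      exact Ideal.mul_mem_right _ _ ha
    exact hle hx
  have hIker : Ideal.span (Set.range fun i : Fin r => L.φ (MvPowerSeries.X i)) ≤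
      RingHom.ker L.ψ := by
    rw [Ideal.span_le]
    rintro _ ⟨i, rfl⟩
    exact L.ψ_φ_X i
  obtain ⟨j₀⟩ : Nonempty (Module.Free.ChooseBasisIndex (MvPowerSeries (Fin r) 𝒪) L.N) :=
    e.index_nonempty
  have hkerI : RingHom.ker L.ψ ≤
      Ideal.span (Set.range fun i : Fin r => L.φ (MvPowerSeries.X i)) := by
    intro f hf
    have h1 : L.π (f • e j₀) = 0 := by rw [L.π_smul, RingHom.mem_ker.mp hf, zero_smul]
    have h2 := hcoord _ ((L.ker_π _).mp h1) j₀
    simpa using h2
  have hli : LinearIndependent R (fun j => L.π (e j)) := by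
    rw [linearIndependent_iff']
    intro s g hg i hi
    choose g' hg' using fun i => L.ψ_surjective (g i)
    have h1 : L.π (∑ i ∈ s, g' i • e i) = 0 := by
      rw [map_sum, ← hg]
      refine Finset.sum_congr rfl fun i _ => ?_
      rw [L.π_smul, hg']
    have h2 := hcoord _ ((L.ker_π _).mp h1) i
    have h3 : e.repr (∑ i ∈ s, g' i • e i) i = g' i := by
      simp [Finsupp.single_apply, hi]
    rw [h3] at h2
    rw [← hg' i]
    exact hIker h2
  have hsp : ⊤ ≤ Submodule.span R (Set.range fun j => L.π (e j)) := by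
    rintro m -
    obtain ⟨x, rfl⟩ := L.π_surjective m
    have hx : x ∈ Submodule.span (MvPowerSeries (Fin r) 𝒪) (Set.range e) := by
      rw [e.span_eq]; trivial
    induction hx using Submodule.span_induction with
    | mem x hx => obtain ⟨j, rfl⟩ := hx; exact Submodule.subset_span ⟨j, rfl⟩
    | zero => rw [map_zero]; exact Submodule.zero_mem _
    | add x y _ _ hx hy => rw [map_add]; exact Submodule.add_mem _ hx hy
    | smul a x _ hx => rw [L.π_smul]; exact Submodule.smul_mem _ _ hx
  refine ⟨Module.Free.of_basis (Module.Basis.mk hli hsp), ?_, le_antisymm hkerI hIker⟩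
  rw [_root_.eq_bot_iff]
  intro a ha
  have h1 : a • L.π (e j₀) = 0 := Module.mem_annihilator.mp ha _
  have := linearIndependent_iff'.mp hli {j₀} (fun _ => a) (by simpa using h1) j₀ (by simp)
  simpa using this

end Fermat.Agent.S57
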